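import Mathlib
import Fermat.Agent.S05.AddSub

set_option autoImplicit false

namespace Fermat.Agent.S05.H31

open WeierstrassCurve Fermat.Agent.S05

universe u

variable {L : Type u} [Field L]

/-! ### Small valuation-subring toolkit -/

section Toolkit

variable (A : ValuationSubring L)

lemma nu_iff {x : L} : x ∈ A.nonunits ↔ A.valuation x < 1 := A.mem_nonunits_iff

lemma mem_of_nu {x : L} (hx : x ∈ A.nonunits) : x ∈ A := A.nonunits_subset hx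

lemma nu_mul_left {a x : L} (ha : a ∈ A) (hx : x ∈ A.nonunits) : a * x ∈ A.nonunits := by
  rw [nu_iff] at hx ⊢
  rw [map_mul]
  have h1 : A.valuation a ≤ 1 := (A.valuation_le_one_iff a).mpr ha
  calc A.valuation a * A.valuation x ≤ 1 * A.valuation x := by gcongr
    _ = A.valuation x := one_mul _
    _ < 1 := hx

lemma nu_mul_right {a x : L} (hx : x ∈ A.nonunits) (ha : a ∈ A) : x * a ∈ A.nonunits := by
  rw [mul_comm]; exact nu_mul_left A ha hx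

lemma nu_add {x y : L} (hx : x ∈ A.nonunits) (hy : y ∈ A.nonunits) : x + y ∈ A.nonunits :=
  A.nonunits.add_mem hx hy

lemma nu_sub {x y : L} (hx : x ∈ A.nonunits) (hy : y ∈ A.nonunits) : x - y ∈ A.nonunits :=
  A.nonunits.sub_mem hx hy

lemma nu_neg {x : L} (hx : x ∈ A.nonunits) : -x ∈ A.nonunits :=
  A.nonunits.neg_mem hx

lemma one_not_nu : (1 : L) ∉ A.nonunits := by
  rw [nu_iff, map_one]; exact lt_irrefl _

/-- If `x = 1 + (nonunit)` then `x` is not a nonunit. -/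
lemma not_nu_of_sub_one_nu {x : L} (hx : x - 1 ∈ A.nonunits) : x ∉ A.nonunits := by
  intro h
  apply one_not_nu A
  have := nu_sub A h hx
  simpa using this

lemma two_mem : (2 : L) ∈ A := by
  have : (2 : L) = 1 + 1 := by norm_num
  rw [this]; exact A.add_mem _ _ A.one_mem A.one_mem

lemma natCast_mem (n : ℕ) : (n : L) ∈ A := by
  induction n with
  | zero => simp
  | succ k ih => rw [Nat.cast_succ]; exact A.add_mem _ _ ih A.one_mem

/-- The inverse of an element that is not a nonunit lies in `A`. -/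
lemma inv_mem_of_not_nu {x : L} (hx : x ∉ A.nonunits) : x⁻¹ ∈ A := by
  rw [nu_iff, not_lt] at hx
  rw [← A.valuation_le_one_iff, map_inv₀]
  exact inv_le_one_of_one_le₀ hx

lemma ne_zero_of_not_nu {x : L} (hx : x ∉ A.nonunits) : x ≠ 0 := by
  rintro rfl
  apply hx
  rw [nu_iff, map_zero]
  exact zero_lt_one

/-- A unit (valuation one) times a nonunit-complement element. -/
lemma val_one_iff {x : L} : A.valuation x = 1 ↔ x ∈ A ∧ x ∉ A.nonunits := by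
  rw [nu_iff, not_lt, ← A.valuation_le_one_iff]
  exact ⟨fun h => ⟨h.le, h.ge⟩, fun h => le_antisymm h.1 h.2⟩

lemma inv_nu_of_not_mem {x : L} (hx : x ∉ A) : x⁻¹ ∈ A.nonunits := by
  rw [A.inv_mem_nonunits_iff]; exact Or.inr hx

end Toolkit

/-! ### The subgroup `E₀` in the multiplicative normal form -/

section E0

variable [DecidableEq L]

/-- `P` lies in `E₀`: it is zero or its `x`-coordinate is not in the maximal ideal. -/
def InE0 {W : Affine L} (A : ValuationSubring L) (P : W.Point) : Prop :=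
  P = 0 ∨ xOf P ∉ A.nonunits

omit [DecidableEq L] in
lemma InE0.zero {W : Affine L} (A : ValuationSubring L) : InE0 A (0 : W.Point) := Or.inl rfl

lemma InE0.neg {W : Affine L} {A : ValuationSubring L} {P : W.Point} (hP : InE0 A P) :
    InE0 A (-P) := by
  rcases hP with rfl | h
  · left; simp
  · right; rwa [xOf_neg]

lemma inE0_neg_iff {W : Affine L} {A : ValuationSubring L} {P : W.Point} :
    InE0 A (-P) ↔ InE0 A P :=
  ⟨fun h => by simpa using h.neg, InE0.neg⟩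

/-- Doubling preserves `E₀`. -/
lemma InE0.dbl {W : Affine L} {A : ValuationSubring L} (h₃ : W.a₃ = 0) (h₆ : W.a₆ = 0)
    (h₄ : W.a₄ ∈ A.nonunits) (hb₂ : W.b₂ ∈ A) {P : W.Point} (hP : InE0 A P) :
    InE0 A (P + P) := by
  rcases hP with rfl | hx
  · left; simp
  by_cases h2 : P + P = 0
  · exact Or.inl h2
  right
  intro hX
  have hP0 : P ≠ 0 := by rintro rfl; exact h2 (by simp)
  have key := xOf_dbl hP0 h2
  have hx0 : xOf P ≠ 0 := ne_zero_of_not_nu A hx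
  have hy : (xOf P)⁻¹ ∈ A := inv_mem_of_not_nu A hx
  set x := xOf P with hxdef
  set y := x⁻¹ with hydef
  set X := xOf (P + P) with hXdef
  have hb4 : W.b₄ = 2 * W.a₄ := by simp [b₄, h₃]
  have hb6 : W.b₆ = 0 := by simp [b₆, h₃, h₆]
  have hb8 : W.b₈ = -W.a₄ ^ 2 := by simp [b₈, h₃, h₆]
  rw [hb4, hb6, hb8] at key
  have hxy : x * y = 1 := mul_inv_cancel₀ hx0
  -- multiply by y^4
  have id1 : X * (4 * y + W.b₂ * y ^ 2 + 4 * W.a₄ * y ^ 3) = (1 - W.a₄ * y ^ 2) ^ 2 := by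
    have e1 : X * (4 * y + W.b₂ * y ^ 2 + 4 * W.a₄ * y ^ 3)
        = (X * (4 * x ^ 3 + W.b₂ * x ^ 2 + 2 * (2 * W.a₄) * x + 0)) * y ^ 4
          + X * (4 * y + W.b₂ * y ^ 2 + 4 * W.a₄ * y ^ 3) * (1 - (x * y) ^ 3)
          + X * y * (W.b₂ * y + 4 * W.a₄ * y ^ 2) * ((x * y) ^ 3 - (x * y) ^ 2)
          + X * 4 * W.a₄ * y ^ 3 * ((x * y) ^ 2 - (x * y)) := by ring
    rw [e1, key, hxy]
    have e2 : (x ^ 4 - 2 * W.a₄ * x ^ 2 - 2 * 0 * x - -W.a₄ ^ 2) * y ^ 4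
        = ((x * y) ^ 2 - W.a₄ * y ^ 2) ^ 2 + (x * y) ^ 2 * ((x * y) ^ 2 - (x * y) ^ 2) := by ring
    rw [e2, hxy]; ring
  have hL : X * (4 * y + W.b₂ * y ^ 2 + 4 * W.a₄ * y ^ 3) ∈ A.nonunits := by
    apply nu_mul_right A hX
    have h4 : (4 : L) ∈ A := by
      have : (4 : L) = 2 * 2 := by norm_num
      rw [this]; exact A.mul_mem _ _ (two_mem A) (two_mem A)
    have hy2 : y ^ 2 ∈ A := pow_mem hy 2
    have hy3 : y ^ 3 ∈ A := pow_mem hy 3
    exact A.add_mem _ _ (A.add_mem _ _ (A.mul_mem _ _ h4 hy) (A.mul_mem _ _ hb₂ hy2))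
      (A.mul_mem _ _ (A.mul_mem _ _ h4 (mem_of_nu A h₄)) hy3)
  rw [id1] at hL
  have hu : (1 - W.a₄ * y ^ 2) ^ 2 - 1 ∈ A.nonunits := by
    have e : (1 - W.a₄ * y ^ 2) ^ 2 - 1 = W.a₄ * (y ^ 2 * (W.a₄ * y ^ 2 - 2)) := by ring
    rw [e]
    apply nu_mul_right A h₄
    have hy2 : y ^ 2 ∈ A := pow_mem hy 2
    exact A.mul_mem _ _ hy2 (A.sub_mem (A.mul_mem _ _ (mem_of_nu A h₄) hy2) (two_mem A))
  exact not_nu_of_sub_one_nu A hu hL

/-- `E₀` is closed under addition (normal form `a₃ = a₆ = 0`, `a₄` in the maximal ideal,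
`b₂` integral). -/
theorem InE0.add {W : Affine L} {A : ValuationSubring L} (h₃ : W.a₃ = 0) (h₆ : W.a₆ = 0)
    (h₄ : W.a₄ ∈ A.nonunits) (hb₂ : W.b₂ ∈ A) {P Q : W.Point} (hP : InE0 A P)
    (hQ : InE0 A Q) : InE0 A (P + Q) := by
  by_cases hP0 : P = 0
  · subst hP0; simpa using hQ
  by_cases hQ0 : Q = 0
  · subst hQ0; simpa using hP
  have hx₁ : xOf P ∉ A.nonunits := hP.resolve_left hP0
  have hx₂ : xOf Q ∉ A.nonunits := hQ.resolve_left hQ0
  by_cases hxx : xOf P = xOf Q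
  · rcases (xOf_eq_iff hP0 hQ0).mp hxx with rfl | rfl
    · exact InE0.dbl h₃ h₆ h₄ hb₂ hP
    · left; simp
  obtain ⟨hpq, -, hprod, hsum⟩ := xOf_addsub hP0 hQ0 hxx
  right
  intro hX
  have hx₁0 : xOf P ≠ 0 := ne_zero_of_not_nu A hx₁
  have hx₂0 : xOf Q ≠ 0 := ne_zero_of_not_nu A hx₂
  have hy₁ : (xOf P)⁻¹ ∈ A := inv_mem_of_not_nu A hx₁
  have hy₂ : (xOf Q)⁻¹ ∈ A := inv_mem_of_not_nu A hx₂
  set x₁ := xOf P with hx₁def
  set x₂ := xOf Q with hx₂def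
  set y₁ := x₁⁻¹ with hy₁def
  set y₂ := x₂⁻¹ with hy₂def
  set Xp := xOf (P + Q) with hXpdef
  set Xm := xOf (P - Q) with hXmdef
  have hb4 : W.b₄ = 2 * W.a₄ := by simp [b₄, h₃]
  have hb6 : W.b₆ = 0 := by simp [b₆, h₃, h₆]
  have hb8 : W.b₈ = -W.a₄ ^ 2 := by simp [b₈, h₃, h₆]
  rw [hb4, hb6, hb8] at hprod
  rw [hb4, hb6] at hsum
  have h1 : x₁ * y₁ = 1 := mul_inv_cancel₀ hx₁0
  have h2 : x₂ * y₂ = 1 := mul_inv_cancel₀ hx₂0
  -- the key identity, free of division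
  have key : (x₁ * x₂ - W.a₄) ^ 2 =
      Xp * (2 * (x₁ + x₂) * (x₁ * x₂) + W.b₂ * (x₁ * x₂) + 2 * W.a₄ * (x₁ + x₂))
        - Xp ^ 2 * (x₁ - x₂) ^ 2 := by
    linear_combination Xp * hsum - hprod
  have key2 : (1 - W.a₄ * (y₁ * y₂)) ^ 2 =
      Xp * (2 * (y₁ + y₂) + W.b₂ * (y₁ * y₂) + 2 * W.a₄ * (y₁ + y₂) * (y₁ * y₂)
        - Xp * (y₂ - y₁) ^ 2) := by
    have hx1 : x₁ = y₁⁻¹ := by rw [hy₁def, inv_inv]
    have hx2 : x₂ = y₂⁻¹ := by rw [hy₂def, inv_inv]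
    have hy10 : y₁ ≠ 0 := inv_ne_zero hx₁0
    have hy20 : y₂ ≠ 0 := inv_ne_zero hx₂0
    rw [hx1, hx2] at key
    field_simp at key
    linear_combination key
  have hR : Xp * (2 * (y₁ + y₂) + W.b₂ * (y₁ * y₂) + 2 * W.a₄ * (y₁ + y₂) * (y₁ * y₂)
        - Xp * (y₂ - y₁) ^ 2) ∈ A.nonunits := by
    apply nu_mul_right A hX
    have hs : y₁ + y₂ ∈ A := A.add_mem _ _ hy₁ hy₂
    have hm : y₁ * y₂ ∈ A := A.mul_mem _ _ hy₁ hy₂
    have ha4 : W.a₄ ∈ A := mem_of_nu A h₄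
    refine A.sub_mem (A.add_mem _ _ (A.add_mem _ _ (A.mul_mem _ _ (two_mem A) hs)
      (A.mul_mem _ _ hb₂ hm)) (A.mul_mem _ _ (A.mul_mem _ _ (A.mul_mem _ _ (two_mem A) ha4) hs) hm))
      (A.mul_mem _ _ (mem_of_nu A hX) (pow_mem (A.sub_mem hy₂ hy₁) 2))
  rw [← key2] at hR
  have hu : (1 - W.a₄ * (y₁ * y₂)) ^ 2 - 1 ∈ A.nonunits := by
    have e : (1 - W.a₄ * (y₁ * y₂)) ^ 2 - 1
        = W.a₄ * ((y₁ * y₂) * (W.a₄ * (y₁ * y₂) - 2)) := by ring
    rw [e]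
    apply nu_mul_right A h₄
    have hm : y₁ * y₂ ∈ A := A.mul_mem _ _ hy₁ hy₂
    exact A.mul_mem _ _ hm (A.sub_mem (A.mul_mem _ _ (mem_of_nu A h₄) hm) (two_mem A))
  exact not_nu_of_sub_one_nu A hu hR

lemma InE0.sub {W : Affine L} {A : ValuationSubring L} (h₃ : W.a₃ = 0) (h₆ : W.a₆ = 0)
    (h₄ : W.a₄ ∈ A.nonunits) (hb₂ : W.b₂ ∈ A) {P Q : W.Point} (hP : InE0 A P)
    (hQ : InE0 A Q) : InE0 A (P - Q) := by
  rw [sub_eq_add_neg]; exact InE0.add h₃ h₆ h₄ hb₂ hP hQ.neg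

lemma InE0.nsmul {W : Affine L} {A : ValuationSubring L} (h₃ : W.a₃ = 0) (h₆ : W.a₆ = 0)
    (h₄ : W.a₄ ∈ A.nonunits) (hb₂ : W.b₂ ∈ A) {P : W.Point} (hP : InE0 A P) (n : ℕ) :
    InE0 A (n • P) := by
  induction n with
  | zero => rw [zero_smul]; exact InE0.zero A
  | succ k ih => rw [succ_nsmul]; exact InE0.add h₃ h₆ h₄ hb₂ ih hP

/-- If a `p`-torsion point is not in `E₀` then none of its multiples `k • P`, `p ∤ k`, is. -/
theorem not_inE0_nsmul {W : Affine L} {A : ValuationSubring L} (h₃ : W.a₃ = 0) (h₆ : W.a₆ = 0)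
    (h₄ : W.a₄ ∈ A.nonunits) (hb₂ : W.b₂ ∈ A) {p : ℕ} (hp : p.Prime) {P : W.Point}
    (hpP : p • P = 0) (hP : ¬ InE0 A P) {k : ℕ} (hk : ¬ p ∣ k) : ¬ InE0 A (k • P) := by
  intro h
  apply hP
  have hcop : Nat.Coprime k p := (Nat.Prime.coprime_iff_not_dvd hp).mpr hk |>.symm
  -- find m with m * k ≡ 1 mod p
  obtain ⟨m, -, hm⟩ := Nat.exists_mul_mod_eq_one_of_coprime hcop hp.one_lt
  have h1 : (m * k) • P = P := by
    have hdiv : m * k = p * (m * k / p) + 1 := by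
      have := Nat.div_add_mod (m * k) p
      rw [mul_comm m k, hm] at this
      rw [mul_comm m k]; omega
    rw [hdiv, add_smul, mul_smul, one_smul]
    have : p • ((m * k / p) • P) = (m * k / p) • (p • P) := by
      rw [smul_comm]
    rw [this, hpP, smul_zero, zero_add]
  rw [← h1, mul_smul]
  exact InE0.nsmul h₃ h₆ h₄ hb₂ h m

end E0

end Fermat.Agent.S05.H31
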