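import Mathlib
import Fermat.Agent.S05.H31.E0

set_option autoImplicit false

namespace Fermat.Agent.S05.H31

open WeierstrassCurve Fermat.Agent.S05

universe u

variable {L : Type u} [Field L]

/-! ### Integrality of the `y`-coordinate -/

/-- On a Weierstrass curve with integral coefficients, an integral `x` forces an integral `y`. -/
theorem y_mem_of_equation {W : Affine L} {A : ValuationSubring L} (ha₁ : W.a₁ ∈ A)
    (ha₂ : W.a₂ ∈ A) (ha₃ : W.a₃ ∈ A) (ha₄ : W.a₄ ∈ A) (ha₆ : W.a₆ ∈ A) {x y : L}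
    (h : W.Equation x y) (hx : x ∈ A) : y ∈ A := by
  by_contra hy
  have hz : y⁻¹ ∈ A.nonunits := inv_nu_of_not_mem A hy
  have hy0 : y ≠ 0 := by rintro rfl; exact hy A.zero_mem
  rw [Affine.equation_iff] at h
  set z := y⁻¹ with hzdef
  have hyz : y * z = 1 := mul_inv_cancel₀ hy0
  have id1 : (1 : L) = z * ((x ^ 3 + W.a₂ * x ^ 2 + W.a₄ * x + W.a₆) * z - W.a₁ * x - W.a₃) := by
    have e : z * ((x ^ 3 + W.a₂ * x ^ 2 + W.a₄ * x + W.a₆) * z - W.a₁ * x - W.a₃)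
        = (x ^ 3 + W.a₂ * x ^ 2 + W.a₄ * x + W.a₆) * z ^ 2 - W.a₁ * x * z - W.a₃ * z := by ring
    rw [e, ← h]
    have e2 : (y ^ 2 + W.a₁ * x * y + W.a₃ * y) * z ^ 2 - W.a₁ * x * z - W.a₃ * z
        = (y * z) ^ 2 + W.a₁ * x * z * (y * z - 1) + W.a₃ * z * (y * z - 1) := by ring
    rw [e2, hyz]; ring
  apply one_not_nu A
  rw [id1]
  apply nu_mul_right A hz
  have hz' : z ∈ A := mem_of_nu A hz
  have hx2 : x ^ 2 ∈ A := pow_mem hx 2
  have hx3 : x ^ 3 ∈ A := pow_mem hx 3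
  exact A.sub_mem (A.sub_mem (A.mul_mem _ _ (A.add_mem _ _ (A.add_mem _ _ (A.add_mem _ _ hx3
    (A.mul_mem _ _ ha₂ hx2)) (A.mul_mem _ _ ha₄ hx)) ha₆) hz') (A.mul_mem _ _ ha₁ hx)) ha₃

/-! ### Nonsingular reduction away from the node -/

/-- In the normal form `a₃ = a₆ = 0`, `a₄ ∈ 𝔪`, with `2` a unit: a point whose `x`-coordinate is
a unit has nonsingular reduction (one of the two partial derivatives is a unit). -/
theorem nonsingular_reduction {W : Affine L} {A : ValuationSubring L} (h₃ : W.a₃ = 0)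
    (h₆ : W.a₆ = 0) (h₄ : W.a₄ ∈ A.nonunits) (ha₁ : W.a₁ ∈ A) (ha₂ : W.a₂ ∈ A)
    (h2 : A.valuation (2 : L) = 1) {x y : L} (h : W.Equation x y) (hx : A.valuation x = 1) :
    y ∈ A ∧ (A.valuation (W.polynomialX.evalEval x y) = 1 ∨
      A.valuation (W.polynomialY.evalEval x y) = 1) := by
  have hxA : x ∈ A := ((val_one_iff A).mp hx).1
  have hyA : y ∈ A := y_mem_of_equation ha₁ ha₂ (h₃ ▸ A.zero_mem) (mem_of_nu A h₄)
    (h₆ ▸ A.zero_mem) h hxA
  refine ⟨hyA, ?_⟩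
  rw [Affine.evalEval_polynomialX, Affine.evalEval_polynomialY]
  set WX := W.a₁ * y - (3 * x ^ 2 + 2 * W.a₂ * x + W.a₄) with hWX
  set WY := 2 * y + W.a₁ * x + W.a₃ with hWY
  have h3A : (3 : L) ∈ A := by
    have : (3 : L) = 2 + 1 := by norm_num
    rw [this]; exact A.add_mem _ _ (two_mem A) A.one_mem
  have hWXA : WX ∈ A := by
    refine A.sub_mem (A.mul_mem _ _ ha₁ hyA) (A.add_mem _ _ (A.add_mem _ _ ?_ ?_) (mem_of_nu A h₄))
    · exact A.mul_mem _ _ h3A (pow_mem hxA 2)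
    · exact A.mul_mem _ _ (A.mul_mem _ _ (two_mem A) ha₂) hxA
  have hWYA : WY ∈ A := by
    refine A.add_mem _ _ (A.add_mem _ _ (A.mul_mem _ _ (two_mem A) hyA) (A.mul_mem _ _ ha₁ hxA)) ?_
    rw [h₃]; exact A.zero_mem
  by_contra hcon
  rw [not_or] at hcon
  have hWXn : WX ∈ A.nonunits := by
    by_contra hn
    exact hcon.1 ((val_one_iff A).mpr ⟨hWXA, hn⟩)
  have hWYn : WY ∈ A.nonunits := by
    by_contra hn
    exact hcon.2 ((val_one_iff A).mpr ⟨hWYA, hn⟩)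
  rw [Affine.equation_iff] at h
  have id1 : 2 * x ^ 3 = x * (W.a₁ * WY - 2 * WX - 2 * W.a₄) - (WY ^ 2 - 4 * W.a₄ * x) := by
    rw [hWX, hWY, h₃]
    rw [h₃, h₆] at h
    linear_combination (4 : L) * h
  have hmem : 2 * x ^ 3 ∈ A.nonunits := by
    rw [id1]
    have h4 : (4 : L) ∈ A := by
      have : (4 : L) = 2 * 2 := by norm_num
      rw [this]; exact A.mul_mem _ _ (two_mem A) (two_mem A)
    refine nu_sub A (nu_mul_left A hxA (nu_sub A (nu_sub A (nu_mul_left A ha₁ hWYn)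
      (nu_mul_left A (two_mem A) hWXn)) (nu_mul_left A (two_mem A) h₄))) (nu_sub A ?_ ?_)
    · rw [pow_two]; exact nu_mul_left A hWYA hWYn
    · have e : 4 * W.a₄ * x = (4 * x) * W.a₄ := by ring
      rw [e]; exact nu_mul_left A (A.mul_mem _ _ h4 hxA) h₄
  rw [nu_iff, map_mul, map_pow, h2, hx, one_pow, one_mul] at hmem
  exact lt_irrefl _ hmem

/-! ### The auxiliary point with `x`-coordinate `ρ` -/

/-- Existence of the auxiliary point `R = (ρ, ρ η)` where `ρ` and `c = a₄ / ρ` lie in the maximal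
ideal: the "slope" `2 η + a₁` is a unit. -/
theorem exists_R [IsAlgClosed L] {W : Affine L} {A : ValuationSubring L} (h₃ : W.a₃ = 0)
    (h₆ : W.a₆ = 0) (ha₁ : W.a₁ ∈ A) (hb₂ : A.valuation W.b₂ = 1)
    (h2 : A.valuation (2 : L) = 1) {ρ c : L} (hρ : ρ ∈ A.nonunits) (hρ0 : ρ ≠ 0)
    (hc : c ∈ A.nonunits) (h₄ : W.a₄ = c * ρ) :
    ∃ y η : L, W.Nonsingular ρ y ∧ y = ρ * η ∧ η ∈ A ∧ A.valuation (2 * η + W.a₁) = 1 := by
  obtain ⟨s, hs⟩ := IsAlgClosed.exists_pow_nat_eq (W.b₂ + 4 * ρ + 4 * c) (n := 2) (by norm_num)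
  have h20 : (2 : L) ≠ 0 := by
    intro h0; rw [h0, map_zero] at h2; exact zero_ne_one h2
  have h4A : (4 : L) ∈ A := by
    have : (4 : L) = 2 * 2 := by norm_num
    rw [this]; exact A.mul_mem _ _ (two_mem A) (two_mem A)
  -- `s` is a unit
  have hs1 : A.valuation s = 1 := by
    have hv : A.valuation (s ^ 2) = 1 := by
      rw [hs]
      have hsmall : A.valuation (4 * ρ + 4 * c) < 1 := by
        rw [← nu_iff]
        exact nu_add A (nu_mul_left A h4A hρ) (nu_mul_left A h4A hc)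
      have e : W.b₂ + 4 * ρ + 4 * c = W.b₂ + (4 * ρ + 4 * c) := by ring
      rw [e, Valuation.map_add_eq_of_lt_left _ (by rw [hb₂]; exact hsmall), hb₂]
    rw [map_pow] at hv
    exact (pow_eq_one_iff_of_nonneg zero_le (by norm_num)).mp hv
  have hsA : s ∈ A := ((val_one_iff A).mp hs1).1
  have h2inv : (2 : L)⁻¹ ∈ A := by
    rw [← A.valuation_le_one_iff, map_inv₀, h2, inv_one]
  set η := (s - W.a₁) * 2⁻¹ with hη
  have hηs : 2 * η + W.a₁ = s := by
    rw [hη]; field_simp; ring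
  have hηA : η ∈ A := A.mul_mem _ _ (A.sub_mem hsA ha₁) h2inv
  refine ⟨ρ * η, η, ?_, rfl, hηA, by rw [hηs]; exact hs1⟩
  have hb2 : W.b₂ = W.a₁ ^ 2 + 4 * W.a₂ := by simp [b₂]
  have h40 : (4 : L) ≠ 0 := by
    have : (4 : L) = 2 * 2 := by norm_num
    rw [this]; exact mul_ne_zero h20 h20
  have hquad : η ^ 2 + W.a₁ * η = ρ + W.a₂ + c := by
    apply mul_left_cancel₀ h40
    have e : (2 * η + W.a₁) ^ 2 = W.a₁ ^ 2 + 4 * W.a₂ + 4 * ρ + 4 * c := by
      rw [hηs, hs, hb2]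
    linear_combination e
  rw [Affine.nonsingular_iff']
  constructor
  · rw [Affine.equation_iff, h₃, h₆, h₄]
    linear_combination ρ ^ 2 * hquad
  · right
    rw [h₃]
    have e : 2 * (ρ * η) + W.a₁ * ρ + 0 = ρ * (2 * η + W.a₁) := by ring
    rw [e, hηs]
    refine mul_ne_zero hρ0 ?_
    rintro rfl
    rw [map_zero] at hs1
    exact zero_ne_one hs1

/-- A ring endomorphism that fixes the relevant coefficients and `ρ`, and is trivial modulo the
maximal ideal, fixes the `y`-coordinate of the auxiliary point. -/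
theorem R_fixed {F : Type*} [FunLike F L L] [RingHomClass F L L] {W : Affine L}
    {A : ValuationSubring L} (h₃ : W.a₃ = 0) (h₆ : W.a₆ = 0) (σ : F)
    (hσ₂ : ∀ a ∈ A, σ a - a ∈ A.nonunits) {ρ : L} (hρ0 : ρ ≠ 0) (hσρ : σ ρ = ρ)
    (hσ₁ : σ W.a₁ = W.a₁) (hσ₂' : σ W.a₂ = W.a₂) (hσ₄ : σ W.a₄ = W.a₄) {y η : L}
    (hy : W.Equation ρ y) (hyη : y = ρ * η) (hη : η ∈ A)
    (hs : A.valuation (2 * η + W.a₁) = 1) : σ y = y := by
  rw [Affine.equation_iff, h₃, h₆] at hy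
  have hy' : σ y ^ 2 + W.a₁ * ρ * σ y + 0 * σ y = ρ ^ 3 + W.a₂ * ρ ^ 2 + W.a₄ * ρ + 0 := by
    have := congrArg σ hy
    simp only [map_add, map_mul, map_pow, map_zero, hσρ, hσ₁, hσ₂', hσ₄] at this
    exact this
  have hprod : (σ y - y) * (σ y + y + W.a₁ * ρ) = 0 := by
    linear_combination hy' - hy
  rcases mul_eq_zero.mp hprod with h | h
  · exact sub_eq_zero.mp h
  · exfalso
    have hση : σ η = -η - W.a₁ := by
      have h1 : σ y = ρ * σ η := by rw [hyη, map_mul, hσρ]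
      have h2 : ρ * (σ η + η + W.a₁) = 0 := by
        rw [h1, hyη] at h
        linear_combination h
      rcases mul_eq_zero.mp h2 with h3 | h3
      · exact absurd h3 hρ0
      · linear_combination h3
    have hm := hσ₂ η hη
    rw [hση] at hm
    have e : -η - W.a₁ - η = -(2 * η + W.a₁) := by ring
    rw [e, nu_iff, Valuation.map_neg, hs] at hm
    exact lt_irrefl _ hm

/-- If `x(P) = e · ρ` with `e` a unit and `x(R) = ρ`, then `P = ± R` or one of `P ± R` lies in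
`E₀`. -/
theorem eq_or_inE0_add_or_sub [DecidableEq L] {W : Affine L} {A : ValuationSubring L}
    (h₃ : W.a₃ = 0) (h₆ : W.a₆ = 0) (hb₂ : A.valuation W.b₂ = 1) {ρ c : L}
    (hρ : ρ ∈ A.nonunits) (hρ0 : ρ ≠ 0) (hc : c ∈ A.nonunits) (h₄ : W.a₄ = c * ρ)
    {P R : W.Point} (hP : P ≠ 0) (hR : R ≠ 0) (hxR : xOf R = ρ) {e : L}
    (he : A.valuation e = 1) (hxP : xOf P = e * ρ) :
    P = R ∨ P = -R ∨ InE0 A (P + R) ∨ InE0 A (P - R) := by
  by_cases hxx : xOf P = xOf R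
  · rcases (xOf_eq_iff hP hR).mp hxx with h | h
    · exact Or.inl h
    · exact Or.inr (Or.inl h)
  right; right
  obtain ⟨-, -, -, hsum⟩ := xOf_addsub hP hR hxx
  by_contra hcon
  rw [not_or] at hcon
  have hXp : xOf (P + R) ∈ A.nonunits := by
    by_contra hn; exact hcon.1 (Or.inr hn)
  have hXm : xOf (P - R) ∈ A.nonunits := by
    by_contra hn; exact hcon.2 (Or.inr hn)
  have hb4 : W.b₄ = 2 * W.a₄ := by simp [b₄, h₃]
  have hb6 : W.b₆ = 0 := by simp [b₆, h₃, h₆]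
  rw [hxP, hxR, hb4, hb6, h₄] at hsum
  have heA : e ∈ A := ((val_one_iff A).mp he).1
  have hb2A : W.b₂ ∈ A := ((val_one_iff A).mp hb₂).1
  -- divide by ρ²
  have id1 : W.b₂ * e = (xOf (P + R) + xOf (P - R)) * (e - 1) ^ 2
      - 2 * (e + 1) * e * ρ - 2 * c * (e + 1) := by
    have hρ2 : ρ ^ 2 ≠ 0 := pow_ne_zero 2 hρ0
    apply mul_right_cancel₀ hρ2
    linear_combination (-1 : L) * hsum
  have hmem : W.b₂ * e ∈ A.nonunits := by
    rw [id1]
    have he1 : e + 1 ∈ A := A.add_mem _ _ heA A.one_mem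
    refine nu_sub A (nu_sub A (nu_mul_right A (nu_add A hXp hXm)
      (pow_mem (A.sub_mem heA A.one_mem) 2)) ?_) ?_
    · exact nu_mul_left A (A.mul_mem _ _ (A.mul_mem _ _ (two_mem A) he1) heA) hρ
    · have e2 : 2 * c * (e + 1) = (2 * (e + 1)) * c := by ring
      rw [e2]; exact nu_mul_left A (A.mul_mem _ _ (two_mem A) he1) hc
  rw [nu_iff, map_mul, hb₂, he, one_mul] at hmem
  exact lt_irrefl _ hmem

end Fermat.Agent.S05.H31
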