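import Mathlib
import Fermat.Prelude.Def_FLTPrelim_GaloisRep
import Fermat.Agent.S05.H41.E0
import Fermat.Agent.S05.H31.Node

/-!
# S05, module M5b: the auxiliary point `R` with `x(R) = r²`

For a curve `W₀` over `ℚ` in the normal form `a₃ = a₆ = 0`, `a₄ = u · r ^ p` (`u` a unit, `r` in
the maximal ideal of the valuation subring `A` of `L`), `b₂` and `2` units:

* `exists_R_fixed` : there is a point `R ≠ 0` of `W₀⁄L` with `x(R) = r²` which is fixed by every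
  `σ : L ≃ₐ[ℚ] L` acting trivially modulo the maximal ideal of `A`;
* `inE0_add_or_sub` : if `P ≠ 0` has `v(x(P)) = v(r)²` and `x(P) ≠ x(R)`, then one of `P ± R`
  has `x`-coordinate outside the maximal ideal.
-/

set_option autoImplicit false

namespace Fermat.Agent.S05.H31

open WeierstrassCurve WeierstrassCurve.Affine Fermat.Agent.S05

open scoped WeierstrassCurve.Affine

variable {L : Type} [Field L] [DecidableEq L] [Algebra ℚ L]

omit [DecidableEq L] [Algebra ℚ L] in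
/-- Bridge between the two formulations of `E₀`. -/
theorem inE0_iff {W : Affine L} (A : ValuationSubring L) (P : W.Point) :
    InE0 A P ↔ H41.InE0 A.valuation P := by
  unfold InE0 H41.InE0
  rw [nu_iff, not_lt]

/-- Existence of the auxiliary point `R` with `x(R) = r²`, fixed by inertia. -/
theorem exists_R_fixed [IsAlgClosed L] (W₀ : Affine ℚ) (A : ValuationSubring L)
    (h₃ : W₀.a₃ = 0) (h₆ : W₀.a₆ = 0) (ha₁ : algebraMap ℚ L W₀.a₁ ∈ A)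
    (hb₂ : A.valuation (algebraMap ℚ L W₀.b₂) = 1) (h2 : A.valuation (2 : L) = 1)
    {p : ℕ} (hp3 : 3 ≤ p) (u r : ℚ) (hu : A.valuation (algebraMap ℚ L u) = 1)
    (hr : A.valuation (algebraMap ℚ L r) < 1) (hr0 : r ≠ 0) (ha₄ : W₀.a₄ = u * r ^ p)
    (σ : L ≃ₐ[ℚ] L) (hσ₂ : ∀ a ∈ A, σ a - a ∈ A.nonunits) :
    ∃ R : (W₀⁄L).Point, R ≠ 0 ∧ xOf R = (algebraMap ℚ L r) ^ 2 ∧ σ • R = R := by
  set ρ : L := (algebraMap ℚ L r) ^ 2 with hρdef
  set c : L := algebraMap ℚ L u * (algebraMap ℚ L r) ^ (p - 2) with hcdef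
  have hr0' : algebraMap ℚ L r ≠ 0 := by
    rw [Ne, map_eq_zero]; exact hr0
  have hrA : algebraMap ℚ L r ∈ A.nonunits := (nu_iff A).mpr hr
  have hρ : ρ ∈ A.nonunits := by
    rw [hρdef, pow_two]; exact nu_mul_left A (mem_of_nu A hrA) hrA
  have hρ0 : ρ ≠ 0 := pow_ne_zero 2 hr0'
  have huA : algebraMap ℚ L u ∈ A := ((val_one_iff A).mp hu).1
  have hc : c ∈ A.nonunits := by
    rw [hcdef]
    apply nu_mul_left A huA
    obtain ⟨k, hk⟩ : ∃ k, p - 2 = k + 1 := ⟨p - 3, by omega⟩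
    rw [hk, pow_succ]
    exact nu_mul_left A (pow_mem (mem_of_nu A hrA) k) hrA
  have e₁ : (W₀⁄L).a₁ = algebraMap ℚ L W₀.a₁ := rfl
  have e₂ : (W₀⁄L).a₂ = algebraMap ℚ L W₀.a₂ := rfl
  have e₃ : (W₀⁄L).a₃ = 0 := by
    show algebraMap ℚ L W₀.a₃ = 0
    rw [h₃, map_zero]
  have e₆ : (W₀⁄L).a₆ = 0 := by
    show algebraMap ℚ L W₀.a₆ = 0
    rw [h₆, map_zero]
  have e₄ : (W₀⁄L).a₄ = c * ρ := by
    show algebraMap ℚ L W₀.a₄ = c * ρ
    rw [ha₄, map_mul, map_pow, hcdef, hρdef, mul_assoc, ← pow_add]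
    congr 2
    omega
  have eb₂ : (W₀⁄L).b₂ = algebraMap ℚ L W₀.b₂ := WeierstrassCurve.map_b₂ W₀ (algebraMap ℚ L)
  obtain ⟨y, η, hns, hyη, hηA, hs⟩ := exists_R (W := (W₀⁄L)) (A := A) e₃ e₆ (e₁ ▸ ha₁)
    (eb₂ ▸ hb₂) h2 hρ hρ0 hc e₄
  refine ⟨Point.some ρ y hns, Point.some_ne_zero _, xOf_some hns, ?_⟩
  have hσρ : σ ρ = ρ := by
    rw [hρdef, map_pow, AlgEquiv.commutes]
  have hσy : σ y = y := by
    refine R_fixed (W := (W₀⁄L)) (A := A) e₃ e₆ σ hσ₂ hρ0 hσρ ?_ ?_ ?_ hns.1 hyη hηA hs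
    · rw [e₁, AlgEquiv.commutes]
    · rw [e₂, AlgEquiv.commutes]
    · show σ (algebraMap ℚ L W₀.a₄) = algebraMap ℚ L W₀.a₄
      rw [AlgEquiv.commutes]
  have key : ∀ (x' y' : L) (h' : (W₀⁄L).Nonsingular x' y'), x' = ρ → y' = y →
      Point.some x' y' h' = Point.some ρ y hns := by
    intro x' y' h' hx hy
    subst hx hy
    rfl
  exact key (σ ρ) (σ y) ((W₀.baseChange_nonsingular σ.toAlgHom.injective ..).mpr hns) hσρ hσy

/-- If `v(x(P)) = v(r)²`, `x(R) = r²` and `x(P) ≠ x(R)`, then one of `P ± R` lies in `E₀`. -/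
theorem inE0_add_or_sub (W₀ : Affine ℚ) (A : ValuationSubring L)
    (h₃ : W₀.a₃ = 0) (h₆ : W₀.a₆ = 0)
    (hb₂ : A.valuation (algebraMap ℚ L W₀.b₂) = 1)
    {p : ℕ} (hp3 : 3 ≤ p) (u r : ℚ) (hu : A.valuation (algebraMap ℚ L u) = 1)
    (hr : A.valuation (algebraMap ℚ L r) < 1) (hr0 : r ≠ 0) (ha₄ : W₀.a₄ = u * r ^ p)
    {P R : (W₀⁄L).Point} (hP : P ≠ 0) (hR : R ≠ 0) (hxR : xOf R = (algebraMap ℚ L r) ^ 2)
    (hv : A.valuation (xOf P) = A.valuation (algebraMap ℚ L r) ^ 2) (hne : xOf P ≠ xOf R) :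
    H41.InE0 A.valuation (P + R) ∨ H41.InE0 A.valuation (P - R) := by
  set ρ : L := (algebraMap ℚ L r) ^ 2 with hρdef
  set c : L := algebraMap ℚ L u * (algebraMap ℚ L r) ^ (p - 2) with hcdef
  have hr0' : algebraMap ℚ L r ≠ 0 := by
    rw [Ne, map_eq_zero]; exact hr0
  have hrA : algebraMap ℚ L r ∈ A.nonunits := (nu_iff A).mpr hr
  have hρ : ρ ∈ A.nonunits := by
    rw [hρdef, pow_two]; exact nu_mul_left A (mem_of_nu A hrA) hrA
  have hρ0 : ρ ≠ 0 := pow_ne_zero 2 hr0'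
  have huA : algebraMap ℚ L u ∈ A := ((val_one_iff A).mp hu).1
  have hc : c ∈ A.nonunits := by
    rw [hcdef]
    apply nu_mul_left A huA
    obtain ⟨k, hk⟩ : ∃ k, p - 2 = k + 1 := ⟨p - 3, by omega⟩
    rw [hk, pow_succ]
    exact nu_mul_left A (pow_mem (mem_of_nu A hrA) k) hrA
  have e₃ : (W₀⁄L).a₃ = 0 := by
    show algebraMap ℚ L W₀.a₃ = 0
    rw [h₃, map_zero]
  have e₆ : (W₀⁄L).a₆ = 0 := by
    show algebraMap ℚ L W₀.a₆ = 0
    rw [h₆, map_zero]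
  have e₄ : (W₀⁄L).a₄ = c * ρ := by
    show algebraMap ℚ L W₀.a₄ = c * ρ
    rw [ha₄, map_mul, map_pow, hcdef, hρdef, mul_assoc, ← pow_add]
    congr 2
    omega
  have eb₂ : (W₀⁄L).b₂ = algebraMap ℚ L W₀.b₂ := WeierstrassCurve.map_b₂ W₀ (algebraMap ℚ L)
  have he : A.valuation (xOf P / ρ) = 1 := by
    rw [map_div₀, hv, hρdef, map_pow]
    exact div_self (pow_ne_zero 2 ((Valuation.ne_zero_iff _).mpr hr0'))
  have hxP : xOf P = xOf P / ρ * ρ := (div_mul_cancel₀ _ hρ0).symm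
  rcases eq_or_inE0_add_or_sub (W := (W₀⁄L)) (A := A) e₃ e₆ (eb₂ ▸ hb₂) hρ hρ0 hc e₄ hP hR hxR
    he hxP with h | h | h | h
  · exact absurd (by rw [h]) hne
  · exact absurd (by rw [h, xOf_neg]) hne
  · exact Or.inl ((inE0_iff A _).mp h)
  · exact Or.inr ((inE0_iff A _).mp h)

end Fermat.Agent.S05.H31
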